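import Fermat.Agent.H23.GR.Peu
import Fermat.Agent.H11N.Low
import Fermat.Agent.H11N.N3All
import Fermat.Agent.H09.M2H
import Fermat.Prelude.Def_WeierstrassCurve_PeuRamifiee

/-!
# Mazur's principle at `p` for curves which are peu ramifiées at `p`
-/

set_option autoImplicit false
set_option linter.style.haveILetI false
set_option linter.unusedSectionVars false

noncomputable section

namespace Fermat.Agent.H23.S39

open WeierstrassCurve WeierstrassCurve.Affine WeierstrassCurve.Affine.Point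
open Fermat.Agent.H11N Fermat.Agent.H12.LL

local notation "Qb" => AlgebraicClosure ℚ

variable {W : WeierstrassCurve ℤ} {p : ℕ} [hp : Fact p.Prime]

/-- `W[p]` is peu ramifiée at the places above `p` -/
def PeuAt (W : WeierstrassCurve ℤ) (p : ℕ) [hp : Fact p.Prime] (hΔ : W.Δ ≠ 0)
    (hirr : W.ModRepIsIrreducible p) (hp2 : p ≠ 2) : Prop :=
  ∀ (D : ℕ) (hpD : p ∣ D) (hΔD : W.Δ.natAbs ∣ D) (A : ValuationSubring Qb),
    A.LiesOverPrime p → ∀ ζ : Qb, IsPrimitiveRoot ζ p →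
    (mrepCurve hΔ hirr hp2 hpD hΔD).Peu A ζ

/-- **Mazur's principle at `p`**, even level. -/
theorem lower_even (hΔ : W.Δ ≠ 0) (hirr : W.ModRepIsIrreducible p) (hp2 : p ≠ 2)
    (hpeu : PeuAt W p hΔ hirr hp2) {M : ℕ} (hM : M ≠ 0) (h2M : 2 ∣ M) (hpM : ¬ p ∣ M)
    (hmod : W.IsResiduallyModularOfLevel p (M * p)) : W.IsResiduallyModularOfLevel p M := by
  haveI : NeZero M := ⟨hM⟩
  haveI := Fermat.Agent.Ell.isElliptic_WQ hΔ
  set D := M * p * W.Δ.natAbs with hDdef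
  have hD : D ≠ 0 := mul_ne_zero (mul_ne_zero hM hp.out.ne_zero) (Int.natAbs_ne_zero.2 hΔ)
  have hMD : M * p ∣ D := dvd_mul_right _ _
  have hMD' : M ∣ D := (dvd_mul_right M p).trans hMD
  have hpD : p ∣ D := (dvd_mul_left p M).trans hMD
  have hΔD : W.Δ.natAbs ∣ D := dvd_mul_left _ _
  have hcop : Nat.Coprime p M := (Nat.Prime.coprime_iff_not_dvd hp.out).2 hpM
  obtain ⟨A, hA⟩ := H05.exists_liesOverPrime Qb hp.out
  haveI : NeZero (p : Qb) := ⟨Nat.cast_ne_zero.mpr hp.out.ne_zero⟩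
  obtain ⟨ζ, hζ⟩ := HasEnoughRootsOfUnity.exists_primitiveRoot Qb p
  exact H18R.isResiduallyModular_of_RMs hΔ hirr hM
    (rms_of_relations hMD' hD (n3_relations (n3Core hp2 h2M hA) hp2 hcop h2M hA hζ hD hMD
      (mrepCurve hΔ hirr hp2 hpD hΔD) (fun σ _ b hb => det_MR_cyc hΔ hirr hζ hb)
      (hpeu D hpD hΔD A hA ζ hζ) (exists_eigen_of_residual hmod hMD hpD hΔD)))

/-- **Mazur's principle at `p`**, any level, from Mazur's principle at `2`. -/
theorem lower_all (hΔ : W.Δ ≠ 0) (hirr : W.ModRepIsIrreducible p) (hp2 : p ≠ 2)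
    (hpeu : PeuAt W p hΔ hirr hp2)
    (hodd : ∀ M : ℕ, ¬ 2 ∣ M → UnrAt W p 2 → W.IsResiduallyModularOfLevel p (M * 2) →
      W.IsResiduallyModularOfLevel p M)
    {M : ℕ} (hM : M ≠ 0) (hpM : ¬ p ∣ M)
    (hmod : W.IsResiduallyModularOfLevel p (M * p)) : W.IsResiduallyModularOfLevel p M := by
  by_cases h2 : 2 ∣ M
  · exact lower_even hΔ hirr hp2 hpeu hM h2 hpM hmod
  · have h2p : ¬ 2 ∣ p := fun h => hp2 ((Nat.prime_dvd_prime_iff_eq Nat.prime_two hp.out).1 h).symm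
    have hMp : M * p ≠ 0 := mul_ne_zero hM hp.out.ne_zero
    have hunr : UnrAt W p 2 := unrAt_of_residual hΔ hirr hp2 hMp hmod Nat.prime_two
      (fun h => ((Nat.Prime.dvd_mul Nat.prime_two).1 h).elim h2 h2p) hp2.symm
    refine hodd M h2 hunr (lower_even hΔ hirr hp2 hpeu (mul_ne_zero hM two_ne_zero)
      (dvd_mul_left _ _) (fun h => ?_)
      (H18R.isResiduallyModular_mono hΔ hirr hmod ⟨2, by ring⟩
        (mul_ne_zero (mul_ne_zero hM two_ne_zero) hp.out.ne_zero)))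
    rcases (Nat.Prime.dvd_mul hp.out).1 h with h | h
    · exact hpM h
    · exact hp2 ((Nat.prime_dvd_prime_iff_eq hp.out Nat.prime_two).1 h)

/-- good reduction -/
theorem peuAt_good (hΔ : W.Δ ≠ 0) (hirr : W.ModRepIsIrreducible p) (hp2 : p ≠ 2)
    (hgood : ¬ (p : ℤ) ∣ W.Δ) : PeuAt W p hΔ hirr hp2 :=
  fun _ hpD hΔD _ hA _ hζ => GR.peu_good hΔ hirr hp2 hpD hΔD hgood hA hζ

/-- multiplicative reduction, `p ≥ 5` -/
theorem peuAt_mult (hΔ : W.Δ ≠ 0) (hirr : W.ModRepIsIrreducible p) (hp5 : 5 ≤ p)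
    (hpΔ : (p : ℤ) ∣ W.Δ) (hc₄ : ¬ (p : ℤ) ∣ W.c₄) (hdiv : p ∣ padicValInt p W.Δ) :
    PeuAt W p hΔ hirr (by omega) :=
  fun _ hpD hΔD _ hA _ hζ => peu_curve hΔ hirr (by omega) hpD hΔD hp5 hpΔ hc₄ hdiv hA hζ

/-- the divisibility in terms of the integral discriminant -/
theorem dvd_padicValInt (hfin : (W.map (Int.castRingHom ℚ)).IsPeuRamifieeAt p p) :
    p ∣ padicValInt p W.Δ := by
  unfold IsPeuRamifieeAt at hfin
  rw [WeierstrassCurve.map_Δ, eq_intCast, padicValRat.of_int] at hfin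
  exact_mod_cast hfin

/-- **S39** from the two inputs for `p = 3` -/
theorem s39_of (hp2 : p ≠ 2) (hΔ : W.Δ ≠ 0)
    (hthree : p = 3 → ∀ hirr : W.ModRepIsIrreducible p, (p : ℤ) ∣ W.Δ →
      p ∣ padicValInt p W.Δ → PeuAt W p hΔ hirr hp2)
    (hoddthree : p = 3 → W.ModRepIsIrreducible p → ∀ M : ℕ, ¬ 2 ∣ M → UnrAt W p 2 →
      W.IsResiduallyModularOfLevel p (M * 2) → W.IsResiduallyModularOfLevel p M)
    (hsemi : (p : ℤ) ∣ W.Δ → ¬ (p : ℤ) ∣ W.c₄)
    (hirr : W.ModRepIsIrreducible p)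
    (hfin : (W.map (Int.castRingHom ℚ)).IsPeuRamifieeAt p p)
    {M : ℕ} (hM : 0 < M) (hpM : p ∣ M) (hp2M : ¬ p ^ 2 ∣ M)
    (hmod : W.IsResiduallyModularOfLevel p M) :
    W.IsResiduallyModularOfLevel p (M / p) := by
  have hdiv := dvd_padicValInt hfin
  have hpeu : PeuAt W p hΔ hirr hp2 := by
    by_cases hpΔ : (p : ℤ) ∣ W.Δ
    · by_cases h3 : p = 3
      · exact hthree h3 hirr hpΔ hdiv
      · have hp5 : 5 ≤ p := by
          have h1 := hp.out.two_le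
          have h4 : p ≠ 4 := by
            rintro rfl
            exact absurd hp.out (by norm_num)
          omega
        exact peuAt_mult hΔ hirr hp5 hpΔ (hsemi hpΔ) hdiv
    · exact peuAt_good hΔ hirr hp2 hpΔ
  obtain ⟨M', rfl⟩ := hpM
  have hM' : M' ≠ 0 := by
    rintro rfl
    exact absurd hM (by simp)
  rw [Nat.mul_div_cancel_left _ hp.out.pos]
  refine lower_all hΔ hirr hp2 hpeu (fun N h2N hunr hN => ?_) hM' (fun h => hp2M ?_)
    (by rwa [mul_comm])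
  · by_cases h3 : p = 3
    · exact hoddthree h3 hirr N h2N hunr hN
    · exact H09.M2.rm_odd_five hΔ hirr hp2 h3 h2N hunr hN
  · rw [sq]
    exact Nat.mul_dvd_mul_left _ h

end Fermat.Agent.H23.S39
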