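import Fermat.Agent.H23.S39.Fin
import Fermat.Agent.H29P.PeuThree

/-!
# Removing `p` from the level: peu ramifiée at `p`
-/

set_option autoImplicit false

namespace Fermat.Agent.H23.S39

open WeierstrassCurve
open Fermat.Agent.H12.LL

variable {W : WeierstrassCurve ℤ} {p : ℕ} [hp : Fact p.Prime]

/-- **S39** -/
theorem s39 (hp2 : p ≠ 2) (hΔ : W.Δ ≠ 0)
    (hsemi : (p : ℤ) ∣ W.Δ → ¬ (p : ℤ) ∣ W.c₄)
    (hirr : W.ModRepIsIrreducible p)
    (hfin : (W.map (Int.castRingHom ℚ)).IsPeuRamifieeAt p p)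
    {M : ℕ} (hM : 0 < M) (hpM : p ∣ M) (hp2M : ¬ p ^ 2 ∣ M)
    (hmod : W.IsResiduallyModularOfLevel p M) :
    W.IsResiduallyModularOfLevel p (M / p) := by
  refine s39_of hp2 hΔ ?_ (fun h3 hirr M h2M hunr hN => rm_odd_three h3 hΔ hirr M h2M hunr hN)
    hsemi hirr hfin hM hpM hp2M hmod
  rintro rfl hirr hpΔ hdiv
  exact fun D hpD hΔD A hA ζ hζ => H29P.peu_three rfl hΔ hirr hp2 hpD hΔD hdiv hA hζ

end Fermat.Agent.H23.S39
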