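import Fermat.Agent.H23.S39.Kap
import Fermat.Agent.H09.M2H

/-!
# Mazur's principle at `2` for `p = 3`, arbitrary odd levels, from the Eisenstein property of the
elliptic places
-/

set_option autoImplicit false
set_option linter.style.haveILetI false
set_option linter.unusedSectionVars false
set_option maxSynthPendingDepth 3
set_option synthInstance.maxHeartbeats 400000

noncomputable section

attribute [-instance] HahnSeries.instModule HahnSeries.instSMul HahnSeries.instDistribMulAction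
  HahnSeries.instSMulZeroClass

attribute [local instance 10000] Fermat.Agent.H29.instLS Fermat.Agent.H29.instIF
  Fermat.Agent.H29.instIF2

namespace Fermat.Agent.H23.S39

open ModularCurve HahnSeries Fermat.Agent.Igusa AlgebraicCurve Fermat.Agent.FF Fermat.Agent.H11Q
  Fermat.Agent.Q Module IntermediateField Fermat.Agent.H11N Fermat.Agent.NN Fermat.Agent.N9
  Fermat.Agent.H09.M2
open Fermat.Agent.H12.LL

local notation "kk" => IsLocalRing.ResidueField
local notation "Qb" => AlgebraicClosure ℚ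

attribute [local instance] H12.isAlgClosed_kk

/-- The Hecke correspondences are Eisenstein modulo `3` at the elliptic places: if the orders of
`φ` are divisible by `3` away from the elliptic places then so are all the orders of
`nm_l φ / φ ^ (l + 1)`. -/
def NmEis (A : ValuationSubring Qb) (M : ℕ) [NeZero M] : Prop :=
  ∀ (l : ℕ) [Fact l.Prime], ¬ l ∣ M * 2 → ∀ φ : modularFunctionFieldFullC (kk A) M, φ ≠ 0 →
    (∀ v : Place (kk A) (modularFunctionFieldFullC (kk A) M),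
      (0 < v.ord (⟨jqModC (kk A), jqModC_mem_full (kk A) M⟩ :
          modularFunctionFieldFullC (kk A) M) →
        (3 : ℤ) ∣ v.ord (⟨jqModC (kk A), jqModC_mem_full (kk A) M⟩ :
          modularFunctionFieldFullC (kk A) M)) → (3 : ℤ) ∣ v.ord φ) →
    ∀ w : Place (kk A) (modularFunctionFieldFullC (kk A) M),
      (3 : ℤ) ∣ w.ord (nmC (kk A) M l φ * (φ⁻¹) ^ (l + 1))

section Core

variable {M : ℕ} [NeZero M] {A : ValuationSubring Qb}

/-- **(N2)** at `2` in the presence of elliptic places -/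
theorem n2core_of_nmEis (hrM : Nat.Coprime 2 M) (h3 : 3 ∣ M) (h9 : ¬ 9 ∣ M)
    (hno : ∀ s : ℕ, s.Prime → s ∣ M → s % 3 ≠ 2) (hA : A.LiesOverPrime 2)
    (hE : NmEis A M) : N2Core A M 2 hrM 3 1 1 (M * 2) := by
  intro x hx hI l hl
  haveI : Fact (l : ℕ).Prime := ⟨l.2⟩
  have hlN : ¬ (l : ℕ) ∣ M * 2 := hl
  have hrQ : ((2 : ℕ) : Qb) ≠ 0 := by norm_num
  have hm : (3 : ℕ) ≠ 0 := by norm_num
  obtain ⟨f, hf, hfI⟩ := exists_kumI hm hx hI
  obtain ⟨lp⟩ := H11Q.hasPacks Nat.prime_two hA M hrM (Or.inr h3)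
  have hrat := ratS_of_ifix hrM hA hfI
  choose n φ hval using fun j => exists_hasVal (inertData hrM hA) (redHyp hrM hA) lp
    (g := f) hf.ne_zero hrat j
  have hK : H05.Kum 3 (heckeOperatorBar (M * 2) l x - ((l : ℕ) + 1) • x)
      (nmF l f * (f⁻¹) ^ ((l : ℕ) + 1)) := by
    have h1 := (kum_hecke (l := (l : ℕ)) hf).mul (kum_nsmul hf.inv ((l : ℕ) + 1))
    rw [smul_neg, ← sub_eq_add_neg] at h1
    exact h1
  set F : modularFunctionFieldBar (M * 2) := nmF l f * (f⁻¹) ^ ((l : ℕ) + 1) with hF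
  have hFI : IFix A F := (hfI.nmF).mul (hfI.inv.pow _)
  have hFval : ∀ j, HasVal (alData M 2 hrM) A (modularFunctionFieldFullC (kk A) M) j F 0
      (nmC (kk A) M l (φ j) * ((φ j)⁻¹) ^ ((l : ℕ) + 1)) := by
    intro j
    have h1 := (hasVal_nmF hA hrM hlN (hval j)).mul hrQ (((hval j).inv).pow hrQ ((l : ℕ) + 1))
    have h3 : (((l : ℕ) : ℤ) + 1) * n j + (((l : ℕ) + 1 : ℕ) : ℤ) * (-n j) = 0 := by
      push_cast; ring
    rw [h3] at h1
    exact h1
  refine ⟨fun j => nmC (kk A) M l (φ j) * ((φ j)⁻¹) ^ ((l : ℕ) + 1), ?_, ?_, fun j v => ?_⟩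
  · rw [one_smul]
    refine ⟨(hFval 0).1, F, ((2 : ℕ) : Qb) ^ (-(0 : ℤ)), hK, zpow_ne_zero _ hrQ, ?_⟩
    rw [← zsmul_eq_C, ← al_e0 hrM]
    exact (hFval 0).2
  · rw [one_smul]
    refine ⟨(hFval 1).1, wBar M 2 hrM F, ((2 : ℕ) : Qb) ^ (-(0 : ℤ)), ?_, zpow_ne_zero _ hrQ, ?_⟩
    · exact hK.smul (wS M 2 hrM)
    · rw [← zsmul_eq_C, ← al_e1 hrM]
      exact (hFval 1).2
  · rw [Nat.cast_one, one_mul, Nat.cast_ofNat]
    exact hE l hlN (φ j) (hval j).1
      (fun v hv => ord_nonelliptic hrM h3 h9 hno hA hf hfI hval v hv j) v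

/-- **(N2)** at `2` for all the levels divisible by `3` -/
theorem n2core_three (hrM : Nat.Coprime 2 M) (h3 : 3 ∣ M) (hA : A.LiesOverPrime 2)
    (hE : NmEis A M) : N2Core A M 2 hrM 3 1 1 (M * 2) := by
  by_cases h9 : 9 ∣ M
  · refine n2core_of_ordTwo hrM h3 hA (by norm_num) (fun x f hf hI φ n hval j v => ?_)
    rw [Nat.cast_one, one_mul]
    obtain ⟨T, hT⟩ := N9.node_two hrM h9 hA
    have key := hT (m := 3) (by norm_num) (f := f) hf.ne_zero (ratS_of_ifix hrM hA hI) hf.dvd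
      (n := fun _ => n) (φ := φ) hval v
    simp only [sub_self, zero_mul, sub_zero, add_zero] at key
    rcases fin2_cases j with rfl | rfl
    · exact key.1
    · exact key.2
  by_cases hs : ∃ s : ℕ, s.Prime ∧ s ∣ M ∧ s % 3 = 2
  · obtain ⟨s, hs, hsM, hs3⟩ := hs
    exact n2core_of_ordTwo hrM h3 hA (by norm_num)
      (ordTwo_one hrM h3 hs hs3 hsM hA (by norm_num))
  · exact n2core_of_nmEis hrM h3 h9 (fun s hs1 hs2 hs3 => hs ⟨s, hs1, hs2, hs3⟩) hA hE

end Core

section Curve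

variable {W : WeierstrassCurve ℤ}

/-- **Mazur's principle at `2`, `p = 3`**, any odd level, from `NmEis` -/
theorem rm_odd_three_of [hp : Fact (Nat.Prime 3)] (hΔ : W.Δ ≠ 0)
    (hirr : W.ModRepIsIrreducible 3)
    (hE : ∀ (M : ℕ) [NeZero M], Nat.Coprime 2 M → 3 ∣ M →
      ∀ A : ValuationSubring Qb, A.LiesOverPrime 2 → NmEis A M)
    {M : ℕ} (h2M : ¬ 2 ∣ M) (hunr : UnrAt W 3 2)
    (hmod : W.IsResiduallyModularOfLevel 3 (M * 2)) : W.IsResiduallyModularOfLevel 3 M := by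
  have hM0 : M ≠ 0 := fun h => h2M (h ▸ dvd_zero 2)
  haveI : NeZero M := ⟨hM0⟩
  have hM2 : Nat.Coprime 2 M := (Nat.Prime.coprime_iff_not_dvd Nat.prime_two).2 h2M
  have hin : ∀ (M : ℕ) [NeZero M] (hM : Nat.Coprime 2 M), 3 ∣ M →
      ∀ A : ValuationSubring Qb, A.LiesOverPrime 2 → N2Core A M 2 hM 3 1 1 (M * 2) :=
    fun M _ hM h3 A hA => n2core_three hM h3 hA (hE M hM h3 A hA)
  set D := M * 3 * 2 * 3 * W.Δ.natAbs with hDdef
  have hD : D ≠ 0 := mul_ne_zero (mul_ne_zero (mul_ne_zero (mul_ne_zero hM0 three_ne_zero)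
    two_ne_zero) three_ne_zero) (Int.natAbs_ne_zero.2 hΔ)
  have hMD3 : M * 3 * 2 ∣ D := ⟨3 * W.Δ.natAbs, by rw [hDdef]; ring⟩
  have hMD : M * 2 ∣ D := ⟨3 * 3 * W.Δ.natAbs, by rw [hDdef]; ring⟩
  have h3D : 3 ∣ D := ⟨M * 2 * 3 * W.Δ.natAbs, by rw [hDdef]; ring⟩
  have hΔD : W.Δ.natAbs ∣ D := dvd_mul_left _ _
  by_cases h3 : 3 ∣ M
  · exact rm_of_core hΔ hirr (by norm_num) hM2 (c₀ := 1) (c := 1) (by norm_num) (by norm_num) hD
      hMD h3D hΔD
      (fun A hA => (hin M hM2 h3 A hA).mono hMD)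
      (fun A hA => occIn_three hA hM2 h3 (by norm_num) hMD) hunr hmod
  · have hsN : ¬ 3 ∣ M * 2 := by
      intro h
      rcases (Nat.Prime.dvd_mul Nat.prime_three).1 h with h | h
      · exact h3 h
      · omega
    have hM32 : Nat.Coprime 2 (M * 3) := Nat.Coprime.mul_right hM2 (by norm_num)
    refine rm_of_core hΔ hirr (by norm_num) hM2 (c₀ := 1 * (3 + 1)) (c := 1) (by norm_num)
      (by norm_num) hD hMD h3D hΔD
      (fun A hA => N2Core.push (M := M) (r := 2) (s := 3) hA hM2 hM32 hsN (by norm_num) h3D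
        ((hin (M * 3) hM32 (dvd_mul_left _ _) A hA).mono hMD3))
      (fun A hA => occIn_nthree hA hM2 h3 Nat.prime_three (by norm_num) hMD3) hunr hmod

end Curve

end Fermat.Agent.H23.S39
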