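import Fermat.Agent.H23.S39.Main
import Fermat.Agent.H22.M3F

/-!
# Removing `p` from the level: good reduction at `p`
-/

set_option autoImplicit false

namespace Fermat.Agent.H23.S39

open WeierstrassCurve
open Fermat.Agent.H12.LL

variable {W : WeierstrassCurve ℤ} {p : ℕ} [hp : Fact p.Prime]

/-- **Mazur's principle at `2`, `p = 3`**, any odd level -/
theorem rm_odd_three (hp3 : p = 3) (hΔ : W.Δ ≠ 0) (hirr : W.ModRepIsIrreducible p) (M : ℕ)
    (h2M : ¬ 2 ∣ M) (hunr : UnrAt W p 2) (hmod : W.IsResiduallyModularOfLevel p (M * 2)) :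
    W.IsResiduallyModularOfLevel p M := by
  subst hp3
  exact H22.M3.rm_odd_three hΔ hirr h2M hunr hmod

/-- **Mazur's principle at `2`**, any odd `p`, any odd level -/
theorem rm_odd (hp2 : p ≠ 2) (hΔ : W.Δ ≠ 0) (hirr : W.ModRepIsIrreducible p) (M : ℕ)
    (h2M : ¬ 2 ∣ M) (hunr : UnrAt W p 2) (hmod : W.IsResiduallyModularOfLevel p (M * 2)) :
    W.IsResiduallyModularOfLevel p M := by
  by_cases h3 : p = 3
  · exact rm_odd_three h3 hΔ hirr M h2M hunr hmod
  · exact H09.M2.rm_odd_five hΔ hirr hp2 h3 h2M hunr hmod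

/-- **S40** -/
theorem s40 (hp2 : p ≠ 2) (hΔ : W.Δ ≠ 0) (hgood : W.IsGoodPrimeFor p)
    (hirr : W.ModRepIsIrreducible p)
    {M : ℕ} (hM : 0 < M) (hpM : p ∣ M) (hp2M : ¬ p ^ 2 ∣ M)
    (hmod : W.IsResiduallyModularOfLevel p M) :
    W.IsResiduallyModularOfLevel p (M / p) := by
  obtain ⟨M', rfl⟩ := hpM
  have hM' : M' ≠ 0 := by
    rintro rfl
    exact absurd hM (by simp)
  rw [Nat.mul_div_cancel_left _ hp.out.pos]
  refine lower_all hΔ hirr hp2 (peuAt_good hΔ hirr hp2 hgood)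
    (fun N h2N hunr hN => rm_odd hp2 hΔ hirr N h2N hunr hN) hM' (fun h => hp2M ?_)
    (by rwa [mul_comm])
  rw [sq]
  exact Nat.mul_dvd_mul_left _ h

end Fermat.Agent.H23.S39
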