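import Fermat.Agent.H09.M2G

/-!
# The orders at `2` away from the elliptic places, without auxiliary prime

If every prime divisor of `M` other than `3` is `1` modulo `3` then the two valuations of a
Kummer generator are congruent modulo `3` (a degree argument on the special fibre of level `3 M`).
-/

set_option autoImplicit false
set_option linter.style.haveILetI false
set_option linter.unusedSectionVars false
set_option maxSynthPendingDepth 3

noncomputable section

attribute [-instance] HahnSeries.instModule HahnSeries.instSMul HahnSeries.instDistribMulAction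
  HahnSeries.instSMulZeroClass

attribute [local instance 10000] Fermat.Agent.H29.instLS Fermat.Agent.H29.instIF
  Fermat.Agent.H29.instIF2

namespace Fermat.Agent.H23.S39

open ModularCurve HahnSeries Fermat.Agent.Igusa AlgebraicCurve Fermat.Agent.FF Fermat.Agent.H11Q
  Fermat.Agent.Q Module IntermediateField Fermat.Agent.H11N Fermat.Agent.NN Fermat.Agent.N9
  Fermat.Agent.H09.M2

local notation "kk" => IsLocalRing.ResidueField
local notation "Qb" => AlgebraicClosure ℚ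

attribute [local instance] H12.isAlgClosed_kk

section Psi

theorem psi_not_dvd (N : ℕ) (hN : N ≠ 0) (h : ∀ s : ℕ, s.Prime → s ∣ N → s % 3 = 1) :
    ¬ 3 ∣ dedekindPsi N := by
  induction N using induction_on_primes with
  | zero => exact absurd rfl hN
  | one => rw [dedekindPsi_one]; norm_num
  | prime_mul q a hq ih =>
    have ha : a ≠ 0 := right_ne_zero_of_mul hN
    have h1 := ih ha (fun s hs hsa => h s hs (hsa.mul_left q))
    have h2 := h q hq (dvd_mul_right q a)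
    rw [mul_comm q a, dedekindPsi_mul_prime hq ha]
    intro h3
    rcases (Nat.Prime.dvd_mul Nat.prime_three).1 h3 with h4 | h4
    · exact h1 h4
    · split_ifs at h4 <;> omega

theorem psi_nine {M : ℕ} (hM : M ≠ 0) (h3 : 3 ∣ M) (h9 : ¬ 9 ∣ M) :
    dedekindPsi (M * 3) = 12 * dedekindPsi (M / 3) := by
  obtain ⟨c, rfl⟩ := h3
  have hc : c ≠ 0 := right_ne_zero_of_mul hM
  have h3c : ¬ 3 ∣ c := fun ⟨d, hd⟩ => h9 ⟨d, by rw [hd]; ring⟩
  rw [Nat.mul_div_cancel_left _ (by norm_num : 0 < 3),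
    dedekindPsi_mul_prime Nat.prime_three hM, if_pos (dvd_mul_right 3 c), mul_comm 3 c,
    dedekindPsi_mul_prime Nat.prime_three hc, if_neg h3c]
  ring

end Psi

section Node

variable {M r : ℕ} [NeZero M] [hr : Fact r.Prime] {A : ValuationSubring Qb}

/-- **Theorem N1**, with the degree of `T`. -/
theorem node_mod9_deg (hrM : Nat.Coprime r M) (h9 : 9 ∣ M) (hr2 : r = 2)
    (hA : A.LiesOverPrime r) :
    ∃ T : Divisor (kk A) (modularFunctionFieldFullC (kk A) M),
      12 * Divisor.degree T = dedekindPsi M ∧ NodeRel hrM A T := by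
  haveI : IsAlgClosed (kk A) := H11Q.isAlgClosed_residueField A
  have hMk : (M : kk A) ≠ 0 := Q.natCast_residue_ne_zero hr.out hA hrM
  have h3M : 3 ∣ M := (by norm_num : 3 ∣ 9).trans h9
  have hrM' : ¬ r ∣ M := (Nat.Prime.coprime_iff_not_dvd hr.out).1 hrM
  haveI : SepFF (kk A) (modularFunctionFieldFullC (kk A) M) := sepFF_full hMk
  haveI := SepFF.hasPrincipalDivisors (k := kk A) (κ := modularFunctionFieldFullC (kk A) M)
  obtain ⟨P, hP⟩ := exists_placeInf (kk A) M
  obtain ⟨C, hC⟩ := exists_charts9 (M := M) hrM h3M hr2 hA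
  obtain ⟨lp, hO⟩ := exists_levelPack_reg hr.out hA hMk C hC P hP
  obtain ⟨Z, hZ1, hZ2⟩ := exists_zdat_mod9 hrM h9 hr2 hA
  obtain ⟨T, hT⟩ := Z.exists_T hP
  have hZ1' : Z.tb = ⟨H9.tq (kk A), tq_mem_full9 (kk A) h9 hMk⟩ := Subtype.ext hZ1
  have hdeg := degree_T9 h9 hMk Z.S T (fun v => by
    rw [hT, hZ1']
    rfl)
  refine ⟨T, ?_, ?_⟩
  · rw [hdeg, hZ2]
    push_cast
    ring
  have hS : (genusFF Qb (modularFunctionFieldBar (M * r)) : ℤ) + 1 ≤
      2 * lp.g' + Divisor.degree T := by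
    have h1 := genusFormula_rel9 (NeZero.ne M) hr.out hrM' h9
    have h3 := genusHyp (M * r)
    have h4 := genusHyp M
    have h5 : (lp.g' : ℚ) = genusFormula M := by rw [lp.g'_eq, ← h4]
    have h6 : (12 : ℚ) * (Divisor.degree T : ℤ) = ((r : ℚ) - 1) * dedekindPsi M := by
      have h7 : 12 * Divisor.degree T = ((r : ℤ) - 1) * dedekindPsi M := by
        rw [hdeg, hZ2, hr2]
        push_cast
        ring
      exact_mod_cast h7
    have h7 : ((genusFF Qb (modularFunctionFieldBar (M * r)) : ℤ) : ℚ) + 1 ≤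
        2 * ((lp.g' : ℤ) : ℚ) + ((Divisor.degree T : ℤ) : ℚ) := by
      push_cast
      rw [h3, h5]
      linarith
    exact_mod_cast h7
  intro m hm f hf0 hf hdvd n φ hval v
  exact node_triv (inertData hrM hA) (redHyp hrM hA) lp Z P hP hO T hT hS hm hf0 hf hdvd hval v

end Node

section Deg

variable {K F : Type*} [Field K] [Field F] [Algebra K F]

theorem dvd_degree {m : ℤ} {D : Divisor K F} (h : ∀ v, m ∣ D v) : m ∣ Divisor.degree D := by
  rw [Divisor.degree, Finsupp.liftAddHom_apply]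
  exact Finset.dvd_sum fun v _ => (h v).mul_right _

end Deg

variable {M : ℕ} [NeZero M] {A : ValuationSubring Qb}

/-- the degree of `T` at level `3 M` -/
theorem node_three (hrM : Nat.Coprime 2 M) (h3 : 3 ∣ M) (h9 : ¬ 9 ∣ M)
    (hno : ∀ s : ℕ, s.Prime → s ∣ M → s % 3 ≠ 2) (hA : A.LiesOverPrime 2) :
    ∃ T : Divisor (kk A) (modularFunctionFieldFullC (kk A) (M * 3)),
      ¬ (3 : ℤ) ∣ Divisor.degree T ∧
      NodeRel (r := 2) (Nat.Coprime.mul_right hrM (by norm_num : Nat.Coprime 2 3)) A T := by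
  have h9' : 9 ∣ M * 3 := by
    obtain ⟨c, rfl⟩ := h3
    exact ⟨c, by ring⟩
  obtain ⟨T, hT1, hT2⟩ := node_mod9_deg (r := 2) (M := M * 3)
    (Nat.Coprime.mul_right hrM (by norm_num : Nat.Coprime 2 3)) h9' rfl hA
  refine ⟨T, fun h => ?_, hT2⟩
  rw [psi_nine (NeZero.ne M) h3 h9] at hT1
  push_cast at hT1
  have h1 : Divisor.degree T = dedekindPsi (M / 3) := by linarith
  rw [h1] at h
  refine psi_not_dvd (M / 3) ?_ ?_ (by exact_mod_cast h)
  · intro h0
    obtain ⟨c, hc⟩ := h3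
    rw [hc, Nat.mul_div_cancel_left _ (by norm_num : 0 < 3)] at h0
    exact NeZero.ne M (by rw [hc, h0, mul_zero])
  · intro s hs hsM
    have h4 : s ≠ 3 := by
      rintro rfl
      obtain ⟨c, hc⟩ := h3
      rw [hc, Nat.mul_div_cancel_left _ (by norm_num : 0 < 3)] at hsM
      obtain ⟨d, rfl⟩ := hsM
      exact h9 ⟨d, by rw [hc]; ring⟩
    have h5 : s % 3 ≠ 0 := by
      intro h6
      exact h4 ((Nat.prime_dvd_prime_iff_eq Nat.prime_three hs).1 (Nat.dvd_of_mod_eq_zero h6)).symm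
    have h6 := hno s hs (hsM.trans (Nat.div_dvd_of_dvd h3))
    omega

/-- (2a) the two valuations are congruent modulo `3` -/
theorem three_dvd_sub (hrM : Nat.Coprime 2 M) (h3 : 3 ∣ M) (h9 : ¬ 9 ∣ M)
    (hno : ∀ s : ℕ, s.Prime → s ∣ M → s % 3 ≠ 2) (hA : A.LiesOverPrime 2)
    {x : JZero (M * 2)} {f : modularFunctionFieldBar (M * 2)} (hf : H05.Kum 3 x f)
    (hI : IFix A f) {φ : Fin 2 → modularFunctionFieldFullC (kk A) M} {n : Fin 2 → ℤ}
    (hval : ∀ j, HasVal (alData M 2 hrM) A (modularFunctionFieldFullC (kk A) M) j f (n j) (φ j)) :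
    (3 : ℤ) ∣ n 1 - n 0 := by
  have hrM' : Nat.Coprime 2 (M * 3) := Nat.Coprime.mul_right hrM (by norm_num)
  have hMk : ((M * 3 : ℕ) : kk A) ≠ 0 := Q.natCast_residue_ne_zero Nat.prime_two hA hrM'
  haveI : SepFF (kk A) (modularFunctionFieldFullC (kk A) (M * 3)) := sepFF_full hMk
  haveI : HasPrincipalDivisors (kk A) (modularFunctionFieldFullC (kk A) (M * 3)) :=
    SepFF.hasPrincipalDivisors
  have hdvd : M * 2 ∣ M * 3 * 2 := ⟨3, by ring⟩
  obtain ⟨T, hT0, hT⟩ := node_three hrM h3 h9 hno hA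
  have hkum := kum_pullN (N := M * 2) (N' := M * 3 * 2) (ℓ := 3) (by ring) hdvd hf
  have key := fun w => (hT (m := 3) (by norm_num) (f := incN hdvd f) hkum.ne_zero
    (ratS_of_ifix hrM' hA (ifix_incN hdvd hI)) hkum.dvd (n := n)
    (φ := fun j => Q.incl (kk A) M 3 (φ j))
    (fun j => hasVal_incN hrM hrM' (dvd_mul_right M 3) hdvd (Q.coe_incl (kk A) M 3 (φ j))
      (hval j)) w).1
  have hne : Q.incl (kk A) M 3 (φ 0) ≠ 0 := by
    intro h0
    exact (hval 0).1 ((map_eq_zero_iff _ (Q.incl (kk A) M 3).toRingHom.injective).mp h0)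
  obtain ⟨D, hD1, hD2⟩ := HasPrincipalDivisors.exists_divisor (K := kk A) _ hne
  have h1 : (3 : ℤ) ∣ Divisor.degree (D - (n 1 - n 0) • T) := by
    refine dvd_degree fun w => ?_
    have h2 := key w
    rw [← hD1 w] at h2
    simpa only [Finsupp.coe_sub, Finsupp.coe_smul, Pi.sub_apply, Pi.smul_apply, smul_eq_mul,
      Nat.cast_ofNat] using h2
  rw [map_sub, map_zsmul, hD2, zero_sub, dvd_neg, smul_eq_mul] at h1
  exact (Int.prime_three.dvd_or_dvd h1).resolve_right hT0

/-- (2b) the pull-back of the orders to level `3 M`, first degeneracy map -/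
theorem dvd_ord_up3 (hrM : Nat.Coprime 2 M) (h3 : 3 ∣ M) (h9 : ¬ 9 ∣ M)
    (hno : ∀ s : ℕ, s.Prime → s ∣ M → s % 3 ≠ 2) (hA : A.LiesOverPrime 2)
    {x : JZero (M * 2)} {f : modularFunctionFieldBar (M * 2)} (hf : H05.Kum 3 x f)
    (hI : IFix A f) {φ : Fin 2 → modularFunctionFieldFullC (kk A) M} {n : Fin 2 → ℤ}
    (hval : ∀ j, HasVal (alData M 2 hrM) A (modularFunctionFieldFullC (kk A) M) j f (n j) (φ j))
    (j : Fin 2) (w : Place (kk A) (modularFunctionFieldFullC (kk A) (M * 3))) :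
    (3 : ℤ) ∣ w.ord (Q.incl (kk A) M 3 (φ j)) := by
  have hn := three_dvd_sub hrM h3 h9 hno hA hf hI hval
  have hrM' : Nat.Coprime 2 (M * 3) := Nat.Coprime.mul_right hrM (by norm_num)
  have hdvd : M * 2 ∣ M * 3 * 2 := ⟨3, by ring⟩
  obtain ⟨T, -, hT⟩ := node_three hrM h3 h9 hno hA
  have hkum := kum_pullN (N := M * 2) (N' := M * 3 * 2) (ℓ := 3) (by ring) hdvd hf
  have key := hT (m := 3) (by norm_num) (f := incN hdvd f) hkum.ne_zero
    (ratS_of_ifix hrM' hA (ifix_incN hdvd hI)) hkum.dvd (n := n)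
    (φ := fun j => Q.incl (kk A) M 3 (φ j))
    (fun j => hasVal_incN hrM hrM' (dvd_mul_right M 3) hdvd (Q.coe_incl (kk A) M 3 (φ j))
      (hval j)) w
  rw [Nat.cast_ofNat] at key
  rcases fin2_cases j with rfl | rfl
  · have h1 := dvd_add key.1 (hn.mul_right (T w))
    rwa [sub_add_cancel] at h1
  · have h1 := dvd_sub key.2 (hn.mul_right (T w))
    rwa [add_sub_cancel_right] at h1

/-- (2b) the pull-back of the orders to level `3 M`, second degeneracy map -/
theorem dvd_ord_up3_beta (hrM : Nat.Coprime 2 M) (h3 : 3 ∣ M) (h9 : ¬ 9 ∣ M)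
    (hno : ∀ s : ℕ, s.Prime → s ∣ M → s % 3 ≠ 2) (hA : A.LiesOverPrime 2)
    {x : JZero (M * 2)} {f : modularFunctionFieldBar (M * 2)} (hf : H05.Kum 3 x f)
    (hI : IFix A f) {φ : Fin 2 → modularFunctionFieldFullC (kk A) M} {n : Fin 2 → ℤ}
    (hval : ∀ j, HasVal (alData M 2 hrM) A (modularFunctionFieldFullC (kk A) M) j f (n j) (φ j))
    (j : Fin 2) (w : Place (kk A) (modularFunctionFieldFullC (kk A) (M * 3))) :
    (3 : ℤ) ∣ w.ord (H12.betaC (kk A) M 3 (φ j)) := by
  have hn := three_dvd_sub hrM h3 h9 hno hA hf hI hval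
  have hrM' : Nat.Coprime 2 (M * 3) := Nat.Coprime.mul_right hrM (by norm_num)
  have hdvd : M * 2 * 3 ∣ M * 3 * 2 := ⟨1, by ring⟩
  obtain ⟨T, -, hT⟩ := node_three hrM h3 h9 hno hA
  haveI : Fact (Nat.Prime 3) := ⟨Nat.prime_three⟩
  obtain ⟨y, hkum⟩ := kum_qe (s := 3) (N := M * 2) (N' := M * 3 * 2) hdvd hf
  have key := hT (m := 3) (by norm_num) (f := H05.qe Qb 3 hdvd f) hkum.ne_zero
    (ratS_of_ifix hrM' hA (ifix_qe hdvd hI)) hkum.dvd (n := n)
    (φ := fun j => H12.betaC (kk A) M 3 (φ j))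
    (fun j => hasVal_qe (s := 3) hrM hrM' hdvd (hval j)) w
  rw [Nat.cast_ofNat] at key
  rcases fin2_cases j with rfl | rfl
  · have h1 := dvd_add key.1 (hn.mul_right (T w))
    rwa [sub_add_cancel] at h1
  · have h1 := dvd_sub key.2 (hn.mul_right (T w))
    rwa [add_sub_cancel_right] at h1

/-- (2c) **the orders away from the elliptic places** -/
theorem ord_nonelliptic (hrM : Nat.Coprime 2 M) (h3 : 3 ∣ M) (h9 : ¬ 9 ∣ M)
    (hno : ∀ s : ℕ, s.Prime → s ∣ M → s % 3 ≠ 2) (hA : A.LiesOverPrime 2)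
    {x : JZero (M * 2)} {f : modularFunctionFieldBar (M * 2)} (hf : H05.Kum 3 x f)
    (hI : IFix A f) {φ : Fin 2 → modularFunctionFieldFullC (kk A) M} {n : Fin 2 → ℤ}
    (hval : ∀ j, HasVal (alData M 2 hrM) A (modularFunctionFieldFullC (kk A) M) j f (n j) (φ j))
    (v : Place (kk A) (modularFunctionFieldFullC (kk A) M))
    (hv : 0 < v.ord (⟨jqModC (kk A), jqModC_mem_full (kk A) M⟩ :
        modularFunctionFieldFullC (kk A) M) →
      (3 : ℤ) ∣ v.ord (⟨jqModC (kk A), jqModC_mem_full (kk A) M⟩ :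
        modularFunctionFieldFullC (kk A) M)) (j : Fin 2) :
    (3 : ℤ) ∣ v.ord (φ j) := by
  have hrM' : Nat.Coprime 2 (M * 3) := Nat.Coprime.mul_right hrM (by norm_num)
  have hMk : ((M * 3 : ℕ) : kk A) ≠ 0 := Q.natCast_residue_ne_zero Nat.prime_two hA hrM'
  have hMk' : (M : kk A) ≠ 0 := Q.natCast_residue_ne_zero Nat.prime_two hA hrM
  have hk3 : (3 : kk A) ≠ 0 := by
    have h1 : ((3 : ℕ) : kk A) ≠ 0 :=
      Q.natCast_residue_ne_zero Nat.prime_two hA (by norm_num)
    exact_mod_cast h1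
  haveI : SepFF (kk A) (modularFunctionFieldFullC (kk A) M) := sepFF_full hMk'
  by_cases hv3 : 0 < v.ord (H22.M2.f3M (kk A) M h3 hk3)
  · obtain ⟨w, hw⟩ := H22.M2.exists_unram_beta Nat.prime_two hA h3 h9 hMk hk3
      (fun v => SepFF.deg_eq_one v) v hv3
    rw [← hw]
    exact dvd_ord_up3_beta hrM h3 h9 hno hA hf hI hval j w
  · obtain ⟨w, hw⟩ := H22.M2.exists_unram_alpha h3 h9 hMk hk3 v (SepFF.deg_eq_one v)
      (not_lt.1 hv3) hv
    rw [← hw]
    exact dvd_ord_up3 hrM h3 h9 hno hA hf hI hval j w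

end Fermat.Agent.H23.S39
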